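/-
S24 package A7 (Fiber), helper43 (backup copy): the embeddings `φ y` of a `LocalData` which induce
a given place `v` over the center form exactly one `ρ`-orbit, of size `v.ord π`.

Main steps (`e = v.ord π`, `t` a uniformiser of `v`, `e' = order (φ x t)`, so `e' * e = s`):
* `eq_of_leadingCoeff_eq` : two embeddings `P, Q : F →+* ℂ((z))` agreeing on `K` and on `π`,
  both of the shape `order ∘ P = e' * v.ord`, and with the same leading coefficient at `t`,
  are equal (twisted derivation `δ = P - Q`, expansion `f = f₀ + t f₁`).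
* `card_rel_le` : at most `e` embeddings induce `v` (leading coefficients of `φ y t` are
  `e`-th roots of a fixed number).
* `rel_iff_orbit'`, `ord_π_eq_minimalPeriod'` : the final statements (with algebraicity of
  `F / K(π)` as an instance argument).
-/
import Fermat.Agent.S24.Defs
import Fermat.Agent.S24.H52.AddVal
import Fermat.Agent.S24.Residue

set_option autoImplicit false

open AlgebraicCurve

noncomputable section

namespace Fermat.Agent.S24.H43

/-! ### Laurent series lemmas -/

section Laurent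

theorem orderTop_C_of_ne {c : ℂ} (hc : c ≠ 0) :
    (HahnSeries.C c : LaurentSeries ℂ).orderTop = 0 := by
  have h : (HahnSeries.C c : LaurentSeries ℂ) = HahnSeries.single 0 c := rfl
  rw [h, HahnSeries.orderTop_single hc]; rfl

theorem leadingCoeff_C (c : ℂ) : (HahnSeries.C c : LaurentSeries ℂ).leadingCoeff = c := by
  have h : (HahnSeries.C c : LaurentSeries ℂ) = HahnSeries.single 0 c := rfl
  rw [h, HahnSeries.leadingCoeff_of_single]

theorem orderTop_natCast_of_pos {n : ℕ} (hn : 0 < n) : ((n : ℕ) : LaurentSeries ℂ).orderTop = 0 := by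
  have h : ((n : ℕ) : LaurentSeries ℂ) = HahnSeries.C (n : ℂ) := rfl
  rw [h]
  exact orderTop_C_of_ne (by exact_mod_cast hn.ne')

/-- powers of a principal unit are principal units -/
theorem orderTop_pow_sub_one_pos {r : LaurentSeries ℂ} (hr : 0 < (r - 1).orderTop) (n : ℕ) :
    0 < (r ^ n - 1).orderTop := by
  have h0 : (0 : WithTop ℤ) ≤ r.orderTop := by
    have h1 : r = 1 + (r - 1) := by ring
    have h2 : min (1 : LaurentSeries ℂ).orderTop (r - 1).orderTop ≤ (1 + (r - 1)).orderTop :=
      HahnSeries.min_orderTop_le_orderTop_add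
    rw [← h1, HahnSeries.orderTop_one] at h2
    exact le_trans (le_min le_rfl hr.le) h2
  induction n with
  | zero => simp
  | succ n ih =>
    have h1 : r ^ (n + 1) - 1 = (r ^ n - 1) * r + (r - 1) := by ring
    rw [h1]
    refine lt_of_lt_of_le ?_ HahnSeries.min_orderTop_le_orderTop_add
    rw [lt_min_iff]
    refine ⟨?_, hr⟩
    rw [HahnSeries.orderTop_mul]
    exact add_pos_of_pos_of_nonneg ih h0

/-- a geometric sum of a principal unit has order `0` (characteristic zero) -/
theorem orderTop_geom_sum {r : LaurentSeries ℂ} (hr : 0 < (r - 1).orderTop) {n : ℕ}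
    (hn : 0 < n) : (∑ i ∈ Finset.range n, r ^ i).orderTop = 0 := by
  have h1 : ∑ i ∈ Finset.range n, r ^ i
      = ((n : ℕ) : LaurentSeries ℂ) + ∑ i ∈ Finset.range n, (r ^ i - 1) := by
    rw [Finset.sum_sub_distrib]; simp
  have h2 : 0 < (∑ i ∈ Finset.range n, (r ^ i - 1)).orderTop := by
    refine Finset.sum_induction _ (fun x : LaurentSeries ℂ => 0 < x.orderTop) ?_ ?_ ?_
    · intro a b ha hb
      exact lt_of_lt_of_le (lt_min ha hb) HahnSeries.min_orderTop_le_orderTop_add
    · simp
    · intro i _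
      exact orderTop_pow_sub_one_pos hr i
  have h3 := orderTop_natCast_of_pos hn
  rw [h1, HahnSeries.orderTop_add_eq_left (by rw [h3]; exact h2), h3]

/-- The key cancellation: if `U₁ T₁^e = U₂ T₂^e`, `T₁, T₂` have the same (positive) order and
leading coefficient, `U₂` is a unit and `U₁ - U₂` vanishes at least to the order of `T₁ - T₂`,
then `T₁ = T₂`. -/
theorem eq_of_mul_pow_eq {T₁ T₂ U₁ U₂ : LaurentSeries ℂ} {e : ℕ} (he : 0 < e) {e' : ℤ}
    (he' : 0 < e') (hT₁ : T₁.orderTop = e') (hT₂ : T₂.orderTop = e')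
    (hlc : T₁.leadingCoeff = T₂.leadingCoeff) (hU₂ : U₂.orderTop = 0)
    (hmul : U₁ * T₁ ^ e = U₂ * T₂ ^ e)
    (hle : (T₁ - T₂).orderTop ≤ (U₁ - U₂).orderTop) : T₁ = T₂ := by
  by_contra hne
  have hT₁0 : T₁ ≠ 0 := by
    rintro rfl
    rw [HahnSeries.orderTop_zero] at hT₁
    exact WithTop.top_ne_coe hT₁
  set r : LaurentSeries ℂ := T₂ / T₁ with hr
  have hT₂r : T₂ = T₁ * r := by rw [hr]; field_simp
  have hsub : T₁ - T₂ = T₁ * (1 - r) := by rw [hT₂r]; ring
  have hr1 : r - 1 ≠ 0 := by
    intro h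
    apply hne
    rw [hT₂r, sub_eq_zero.mp h, mul_one]
  obtain ⟨g, hg⟩ : ∃ g : ℤ, (r - 1).orderTop = g :=
    ⟨_, HahnSeries.orderTop_of_ne_zero hr1⟩
  have hg' : (1 - r).orderTop = g := by
    rw [← hg, ← HahnSeries.orderTop_neg (x := r - 1)]; congr 1; ring
  have hlt : (e' : WithTop ℤ) < (T₁ - T₂).orderTop :=
    HahnSeries.le_orderTop_of_leadingCoeff_eq hT₁ hT₂ hlc
  have hsubord : (T₁ - T₂).orderTop = ((e' + g : ℤ) : WithTop ℤ) := by
    rw [hsub, HahnSeries.orderTop_mul, hT₁, hg', WithTop.coe_add]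
  have hgpos : 0 < g := by
    rw [hsubord] at hlt
    have := WithTop.coe_lt_coe.mp hlt
    omega
  have hrpos : 0 < (r - 1).orderTop := by
    rw [hg]; exact_mod_cast hgpos
  -- `U₁ - U₂ = U₂ * (∑ r^i) * (r - 1)`
  have hU : U₁ - U₂ = U₂ * ((∑ i ∈ Finset.range e, r ^ i) * (r - 1)) := by
    rw [geom_sum_mul]
    have h1 : U₁ = U₂ * r ^ e := by
      have h2 : T₁ ^ e ≠ 0 := pow_ne_zero _ hT₁0
      have h3 : U₁ * T₁ ^ e = (U₂ * r ^ e) * T₁ ^ e := by
        rw [hmul, hT₂r]; ring
      exact mul_right_cancel₀ h2 h3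
    rw [h1]; ring
  have hUord : (U₁ - U₂).orderTop = (g : WithTop ℤ) := by
    rw [hU, HahnSeries.orderTop_mul, HahnSeries.orderTop_mul, hU₂, orderTop_geom_sum hrpos he,
      hg]
    simp
  rw [hsubord, hUord] at hle
  have := WithTop.coe_le_coe.mp hle
  omega

end Laurent

/-! ### Two embeddings with the same leading coefficient at a uniformiser coincide -/

section Twisted

variable {K F : Type*} [Field K] [Field F] [Algebra K F]

theorem orderTop_apply (v : Place K F) (P : F →+* LaurentSeries ℂ) {e' : ℤ}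
    (hP : ∀ f : F, f ≠ 0 → (P f).order = e' * v.ord f) {f : F} (hf : f ≠ 0) :
    (P f).orderTop = ((e' * v.ord f : ℤ) : WithTop ℤ) := by
  rw [← hP f hf, HahnSeries.order_eq_orderTop_of_ne_zero ((map_ne_zero P).mpr hf)]

theorem orderTop_apply_nonneg (v : Place K F) (P : F →+* LaurentSeries ℂ) {e' : ℤ}
    (he' : 0 < e') (hP : ∀ f : F, f ≠ 0 → (P f).order = e' * v.ord f) {f : F}
    (hf : f ∈ v.toValuationSubring) : (0 : WithTop ℤ) ≤ (P f).orderTop := by
  rcases eq_or_ne f 0 with rfl | hf0
  · simp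
  · rw [orderTop_apply v P hP hf0]
    have h := H52.ord_nonneg_of_mem v hf
    exact_mod_cast mul_nonneg he'.le h

theorem exists_expansion (v : Place K F) {t : F} (ht : v.ord t = 1)
    (hres : ∀ f ∈ v.toValuationSubring,
      ∃ a : K, f = algebraMap K F a ∨ 0 < v.ord (f - algebraMap K F a))
    {f : F} (hf : f ∈ v.toValuationSubring) :
    ∃ (a : K) (f₁ : F), f₁ ∈ v.toValuationSubring ∧ f = algebraMap K F a + t * f₁ := by
  have ht0 : t ≠ 0 := by
    rintro rfl
    simp at ht
  obtain ⟨a, h | h⟩ := hres f hf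
  · exact ⟨a, 0, v.toValuationSubring.zero_mem, by rw [h]; simp⟩
  · have hne : f - algebraMap K F a ≠ 0 := by
      intro h0
      rw [h0] at h
      simp at h
    refine ⟨a, (f - algebraMap K F a) / t, ?_, by field_simp; ring⟩
    rw [H52.mem_iff_ord_nonneg v (div_ne_zero hne ht0), (H52.isAddVal_ord v).map_div hne ht0, ht]
    omega

/-- The basic estimate for the twisted derivation `δ = P - Q`. -/
theorem min_le_orderTop_sub (v : Place K F) (P Q : F →+* LaurentSeries ℂ) {e' : ℤ}
    (he' : 0 < e') {t : F} (ht : v.ord t = 1)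
    (hP : ∀ f : F, f ≠ 0 → (P f).order = e' * v.ord f)
    (hQ : ∀ f : F, f ≠ 0 → (Q f).order = e' * v.ord f)
    (hK : ∀ a : K, P (algebraMap K F a) = Q (algebraMap K F a))
    (hres : ∀ f ∈ v.toValuationSubring,
      ∃ a : K, f = algebraMap K F a ∨ 0 < v.ord (f - algebraMap K F a)) :
    ∀ n : ℕ, ∀ f ∈ v.toValuationSubring,
      min (P t - Q t).orderTop (((n : ℤ) * e' : ℤ) : WithTop ℤ) ≤ (P f - Q f).orderTop := by
  have ht0 : t ≠ 0 := by
    rintro rfl
    simp at ht
  have hQt : (Q t).orderTop = ((e' : ℤ) : WithTop ℤ) := by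
    rw [orderTop_apply v Q hQ ht0, ht, mul_one]
  intro n
  induction n with
  | zero =>
    intro f hf
    have h1 := orderTop_apply_nonneg v P he' hP hf
    have h2 := orderTop_apply_nonneg v Q he' hQ hf
    refine le_trans (min_le_right _ _) ?_
    refine le_trans ?_ (le_trans (le_min h1 h2) HahnSeries.min_orderTop_le_orderTop_sub)
    simp
  | succ n ih =>
    intro f hf
    obtain ⟨a, f₁, hf₁, rfl⟩ := exists_expansion v ht hres hf
    have hδ : P (algebraMap K F a + t * f₁) - Q (algebraMap K F a + t * f₁)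
        = (P t - Q t) * P f₁ + Q t * (P f₁ - Q f₁) := by
      rw [map_add, map_add, map_mul, map_mul, hK a]; ring
    rw [hδ]
    refine le_trans ?_ HahnSeries.min_orderTop_le_orderTop_add
    rw [HahnSeries.orderTop_mul, HahnSeries.orderTop_mul, hQt]
    have h1 := orderTop_apply_nonneg v P he' hP hf₁
    have ih1 := ih f₁ hf₁
    refine le_min ?_ ?_
    · refine le_trans (min_le_left _ _) ?_
      exact le_add_of_nonneg_right h1
    · rcases le_total (P t - Q t).orderTop (((n : ℤ) * e' : ℤ) : WithTop ℤ) with h | h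
      · rw [min_eq_left h] at ih1
        refine le_trans (min_le_left _ _) (le_trans ih1 ?_)
        exact le_add_of_nonneg_left (by exact_mod_cast he'.le)
      · rw [min_eq_right h] at ih1
        refine le_trans (min_le_right _ _) ?_
        have h2 : (((n + 1 : ℕ) : ℤ) * e' : ℤ) = e' + (n : ℤ) * e' := by push_cast; ring
        rw [h2, WithTop.coe_add]
        exact add_le_add le_rfl ih1

theorem apply_eq_of_apply_t_eq (v : Place K F) (P Q : F →+* LaurentSeries ℂ) {e' : ℤ}
    (he' : 0 < e') {t : F} (ht : v.ord t = 1)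
    (hP : ∀ f : F, f ≠ 0 → (P f).order = e' * v.ord f)
    (hQ : ∀ f : F, f ≠ 0 → (Q f).order = e' * v.ord f)
    (hK : ∀ a : K, P (algebraMap K F a) = Q (algebraMap K F a))
    (hres : ∀ f ∈ v.toValuationSubring,
      ∃ a : K, f = algebraMap K F a ∨ 0 < v.ord (f - algebraMap K F a))
    (hPQt : P t = Q t) {f : F} (hf : f ∈ v.toValuationSubring) : P f = Q f := by
  by_contra hne
  have hne' : P f - Q f ≠ 0 := sub_ne_zero.mpr hne
  obtain ⟨d, hd⟩ : ∃ d : ℤ, (P f - Q f).orderTop = d := ⟨_, HahnSeries.orderTop_of_ne_zero hne'⟩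
  have h := min_le_orderTop_sub v P Q he' ht hP hQ hK hres (d.toNat + 1) f hf
  rw [hPQt, sub_self, HahnSeries.orderTop_zero, min_eq_right le_top, hd] at h
  have h1 := WithTop.coe_le_coe.mp h
  have h2 : (d.toNat : ℤ) ≥ d := Int.self_le_toNat d
  push_cast at h1
  nlinarith

theorem apply_t_eq (v : Place K F) (P Q : F →+* LaurentSeries ℂ) {e' : ℤ}
    (he' : 0 < e') {t : F} (ht : v.ord t = 1)
    (hP : ∀ f : F, f ≠ 0 → (P f).order = e' * v.ord f)
    (hQ : ∀ f : F, f ≠ 0 → (Q f).order = e' * v.ord f)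
    (hK : ∀ a : K, P (algebraMap K F a) = Q (algebraMap K F a))
    (hres : ∀ f ∈ v.toValuationSubring,
      ∃ a : K, f = algebraMap K F a ∨ 0 < v.ord (f - algebraMap K F a))
    {π : F} (hπ : 0 < v.ord π) (hPQπ : P π = Q π)
    (hlc : (P t).leadingCoeff = (Q t).leadingCoeff) : P t = Q t := by
  have ht0 : t ≠ 0 := by
    rintro rfl
    simp at ht
  have hπ0 : π ≠ 0 := by
    rintro rfl
    simp at hπ
  have hPt : (P t).orderTop = ((e' : ℤ) : WithTop ℤ) := by
    rw [orderTop_apply v P hP ht0, ht, mul_one]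
  have hQt : (Q t).orderTop = ((e' : ℤ) : WithTop ℤ) := by
    rw [orderTop_apply v Q hQ ht0, ht, mul_one]
  by_contra hne
  have hne' : P t - Q t ≠ 0 := sub_ne_zero.mpr hne
  obtain ⟨d, hd⟩ : ∃ d : ℤ, (P t - Q t).orderTop = d := ⟨_, HahnSeries.orderTop_of_ne_zero hne'⟩
  have hlt : ((e' : ℤ) : WithTop ℤ) < (P t - Q t).orderTop :=
    HahnSeries.le_orderTop_of_leadingCoeff_eq hPt hQt hlc
  rw [hd] at hlt
  have hlt' : e' < d := WithTop.coe_lt_coe.mp hlt
  -- the unit `u = π / t ^ e`
  set e : ℕ := (v.ord π).toNat with he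
  have hepos : 0 < e := by rw [he]; omega
  have hecast : (e : ℤ) = v.ord π := by rw [he]; omega
  set u : F := π / t ^ e with hu
  have hu0 : u ≠ 0 := div_ne_zero hπ0 (pow_ne_zero _ ht0)
  have hordu : v.ord u = 0 := by
    rw [hu, (H52.isAddVal_ord v).map_div hπ0 (pow_ne_zero _ ht0),
      (H52.isAddVal_ord v).map_pow ht0, ht]
    omega
  have humem : u ∈ v.toValuationSubring := by
    rw [H52.mem_iff_ord_nonneg v hu0, hordu]
  have hπu : π = u * t ^ e := by
    rw [hu]; field_simp
  apply hne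
  refine eq_of_mul_pow_eq hepos he' hPt hQt hlc (U₁ := P u) (U₂ := Q u) ?_ ?_ ?_
  · rw [orderTop_apply v Q hQ hu0, hordu, mul_zero]; rfl
  · rw [← map_pow, ← map_pow, ← map_mul, ← map_mul, ← hπu, hPQπ]
  · have h := min_le_orderTop_sub v P Q he' ht hP hQ hK hres d.toNat u humem
    rw [hd] at h ⊢
    refine le_trans ?_ h
    refine le_min le_rfl ?_
    have h2 : ((d.toNat : ℤ)) = d := by omega
    rw [h2]
    exact_mod_cast (by nlinarith : d ≤ d * e')

/-- **Rigidity**: two embeddings compatible with the place `v`, agreeing on `K` and on `π`, and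
with the same leading coefficient at a uniformiser, are equal. -/
theorem eq_of_leadingCoeff_eq (v : Place K F) (P Q : F →+* LaurentSeries ℂ) {e' : ℤ}
    (he' : 0 < e') {t : F} (ht : v.ord t = 1)
    (hP : ∀ f : F, f ≠ 0 → (P f).order = e' * v.ord f)
    (hQ : ∀ f : F, f ≠ 0 → (Q f).order = e' * v.ord f)
    (hK : ∀ a : K, P (algebraMap K F a) = Q (algebraMap K F a))
    (hres : ∀ f ∈ v.toValuationSubring,
      ∃ a : K, f = algebraMap K F a ∨ 0 < v.ord (f - algebraMap K F a))
    {π : F} (hπ : 0 < v.ord π) (hPQπ : P π = Q π)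
    (hlc : (P t).leadingCoeff = (Q t).leadingCoeff) : P = Q := by
  have hPQt := apply_t_eq v P Q he' ht hP hQ hK hres hπ hPQπ hlc
  ext1 f
  rcases v.toValuationSubring.mem_or_inv_mem f with hf | hf
  · exact apply_eq_of_apply_t_eq v P Q he' ht hP hQ hK hres hPQt hf
  · have h := apply_eq_of_apply_t_eq v P Q he' ht hP hQ hK hres hPQt hf
    rw [map_inv₀, map_inv₀] at h
    exact inv_injective h

end Twisted

/-! ### The fibre of a place -/

section Main

variable {K F X : Type*} [Field K] [Field F] [Algebra K F] [Fintype X]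
  {R : Subalgebra K F} {π : F}

theorem exists_uniformizer (v : Place K F) : ∃ t : F, v.ord t = 1 := by
  obtain ⟨ϖ, hϖ⟩ := IsDiscreteValuationRing.exists_irreducible v.toValuationSubring
  exact ⟨ϖ, v.ord_coe_irreducible hϖ⟩

theorem leadingCoeff_pow' (x : LaurentSeries ℂ) (n : ℕ) :
    (x ^ n).leadingCoeff = x.leadingCoeff ^ n := by
  induction n with
  | zero => simp
  | succ n ih => rw [pow_succ, HahnSeries.leadingCoeff_mul, ih, pow_succ]

theorem rel_normal (L : LocalData K F X R π) (v : Place K F) (hv : 0 < v.ord π) {t : F}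
    (ht : v.ord t = 1) {x : X} (hx : L.Rel v x) :
    0 < (L.φ x t).order ∧ (L.s : ℤ) = (L.φ x t).order * v.ord π := by
  have h := hx t
  rw [ht, mul_one] at h
  have hs : (0 : ℤ) < L.s := by exact_mod_cast L.s_pos
  refine ⟨?_, h.symm⟩
  rw [← h] at hs
  exact (pos_iff_pos_of_mul_pos hs).mpr hv

theorem rel_iff_of_rel (L : LocalData K F X R π) (v : Place K F) (hv : 0 < v.ord π) {t : F}
    (ht : v.ord t = 1) {x : X} (hx : L.Rel v x) (y : X) :
    L.Rel v y ↔ ∀ f : F, (L.φ y f).order = (L.φ x t).order * v.ord f := by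
  obtain ⟨-, hs⟩ := rel_normal L v hv ht hx
  constructor
  · intro hy f
    have h := hy f
    rw [hs] at h
    have h2 : (L.φ y f).order * v.ord π = ((L.φ x t).order * v.ord f) * v.ord π := by
      rw [h]; ring
    exact mul_right_cancel₀ hv.ne' h2
  · intro hy f
    rw [hy f, hs]; ring

theorem rel_pow (L : LocalData K F X R π) (v : Place K F) {x : X} (hx : L.Rel v x) (k : ℕ) :
    L.Rel v ((L.ρ ^ k) x) := by
  induction k with
  | zero => simpa using hx
  | succ k ih =>
    intro f
    rw [pow_succ', Equiv.Perm.mul_apply, L.order_ρ]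
    exact ih f

theorem minimalPeriod_pos (ρ : Equiv.Perm X) (x : X) : 0 < Function.minimalPeriod ρ x := by
  refine Function.IsPeriodicPt.minimalPeriod_pos (orderOf_pos ρ) ?_
  show (ρ^[orderOf ρ]) x = x
  rw [Equiv.Perm.iterate_eq_pow, pow_orderOf_eq_one]
  rfl

theorem ord_π_dvd_minimalPeriod (L : LocalData K F X R π) (v : Place K F) (hv : 0 < v.ord π)
    {x : X} (hx : L.Rel v x) : v.ord π ∣ (Function.minimalPeriod L.ρ x : ℤ) := by
  obtain ⟨t, ht⟩ := exists_uniformizer v
  obtain ⟨he', hs⟩ := rel_normal L v hv ht hx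
  have hfix : (L.ρ ^ Function.minimalPeriod L.ρ x) x = x := by
    rw [← Equiv.Perm.iterate_eq_pow]
    exact Function.iterate_minimalPeriod
  have h := L.dvd_order x t _ hfix
  rw [hs, mul_comm ((Function.minimalPeriod L.ρ x : ℕ) : ℤ)] at h
  exact (mul_dvd_mul_iff_left he'.ne').mp h

open scoped Classical in
/-- At most `v.ord π` embeddings induce the place `v`. -/
theorem card_rel_le [IsAlgClosed K] (L : LocalData K F X R π)
    [Algebra.IsAlgebraic (IntermediateField.adjoin K {π}) F] (v : Place K F)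
    (hv : 0 < v.ord π) {x : X} (hx : L.Rel v x) :
    (Finset.univ.filter (fun y => L.Rel v y)).card ≤ (v.ord π).toNat := by
  obtain ⟨t, ht⟩ := exists_uniformizer v
  obtain ⟨he', hs⟩ := rel_normal L v hv ht hx
  have hres : ∀ f ∈ v.toValuationSubring,
      ∃ a : K, f = algebraMap K F a ∨ 0 < v.ord (f - algebraMap K F a) :=
    fun f hf => exists_sub_algebraMap_ord_pos π v hf
  have ht0 : t ≠ 0 := by
    rintro rfl
    simp at ht
  have hπ0 : π ≠ 0 := by
    rintro rfl
    simp at hv
  set e : ℕ := (v.ord π).toNat with he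
  have hepos : 0 < e := by rw [he]; omega
  set u : F := π / t ^ e with hu
  have hu0 : u ≠ 0 := div_ne_zero hπ0 (pow_ne_zero _ ht0)
  have hordu : v.ord u = 0 := by
    rw [hu, (H52.isAddVal_ord v).map_div hπ0 (pow_ne_zero _ ht0),
      (H52.isAddVal_ord v).map_pow ht0, ht]
    omega
  have humem : u ∈ v.toValuationSubring := by
    rw [H52.mem_iff_ord_nonneg v hu0, hordu]
  have hπu : π = u * t ^ e := by
    rw [hu]; field_simp
  obtain ⟨a, ha⟩ := hres u humem
  have ha0 : a ≠ 0 := by
    rintro rfl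
    rw [map_zero, sub_zero, hordu] at ha
    rcases ha with ha | ha
    · exact hu0 ha
    · exact lt_irrefl _ ha
  have hιa : L.ι a ≠ 0 := (map_ne_zero L.ι).mpr ha0
  -- the leading coefficient of `φ y u`
  have hlcu : ∀ y, L.Rel v y → (L.φ y u).leadingCoeff = L.ι a := by
    intro y hy
    have hyn := (rel_iff_of_rel L v hv ht hx y).mp hy
    rcases ha with ha | ha
    · rw [ha, L.φ_algebraMap, leadingCoeff_C]
    · have hne : u - algebraMap K F a ≠ 0 := by
        intro h0
        rw [h0] at ha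
        simp at ha
      have h1 : L.φ y u = HahnSeries.C (L.ι a) + L.φ y (u - algebraMap K F a) := by
        rw [map_sub, L.φ_algebraMap]; ring
      rw [h1, HahnSeries.leadingCoeff_add_eq_left, leadingCoeff_C]
      rw [orderTop_C_of_ne hιa, orderTop_apply v (L.φ y) (fun f _ => hyn f) hne]
      exact_mod_cast mul_pos he' ha
  -- the leading coefficient of `φ y t` is an `e`-th root of a fixed number
  have hroot : ∀ y, L.Rel v y →
      (L.φ y t).leadingCoeff ^ e = (L.ι a)⁻¹ * (L.φ x π).leadingCoeff := by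
    intro y hy
    have h1 : L.φ x π = L.φ y u * (L.φ y t) ^ e := by
      rw [L.φ_π x y, ← map_pow, ← map_mul, ← hπu]
    rw [h1, HahnSeries.leadingCoeff_mul, leadingCoeff_pow', hlcu y hy]
    field_simp
  have hinj : Set.InjOn (fun y => (L.φ y t).leadingCoeff)
      (Finset.univ.filter (fun y => L.Rel v y) : Finset X) := by
    intro y hy y' hy' hlc
    rw [Finset.mem_coe, Finset.mem_filter] at hy hy'
    have hyn := (rel_iff_of_rel L v hv ht hx y).mp hy.2
    have hyn' := (rel_iff_of_rel L v hv ht hx y').mp hy'.2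
    apply L.φ_injective
    exact eq_of_leadingCoeff_eq v (L.φ y) (L.φ y') he' ht (fun f _ => hyn f) (fun f _ => hyn' f)
      (fun a => by rw [L.φ_algebraMap, L.φ_algebraMap]) hres hv (L.φ_π y y') hlc
  have hmaps : ∀ y ∈ (Finset.univ.filter (fun y => L.Rel v y) : Finset X),
      (fun y => (L.φ y t).leadingCoeff) y
        ∈ Polynomial.nthRootsFinset e ((L.ι a)⁻¹ * (L.φ x π).leadingCoeff) := by
    intro y hy
    simp only [Finset.mem_filter, Finset.mem_univ, true_and] at hy
    rw [Polynomial.mem_nthRootsFinset hepos]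
    exact hroot y hy
  refine le_trans (Finset.card_le_card_of_injOn _ hmaps hinj) ?_
  rw [Polynomial.nthRootsFinset_def]
  exact le_trans (Multiset.toFinset_card_le _) (Polynomial.card_nthRoots _ _)

/-- The two statements of package A7, with algebraicity of `F / K(π)` as an instance. -/
theorem fiber_main [IsAlgClosed K] (L : LocalData K F X R π)
    [Algebra.IsAlgebraic (IntermediateField.adjoin K {π}) F] (v : Place K F)
    (hv : 0 < v.ord π) {x : X} (hx : L.Rel v x) :
    v.ord π = (Function.minimalPeriod L.ρ x : ℤ) ∧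
      ∀ y, L.Rel v y → ∃ k : ℕ, (L.ρ ^ k) x = y := by
  classical
  set m := Function.minimalPeriod L.ρ x with hm
  have hmpos : 0 < m := minimalPeriod_pos L.ρ x
  have hdvd : v.ord π ∣ (m : ℤ) := ord_π_dvd_minimalPeriod L v hv hx
  have hle : v.ord π ≤ (m : ℤ) := Int.le_of_dvd (by exact_mod_cast hmpos) hdvd
  set T : Finset X := (Finset.range m).image (fun k => (L.ρ ^ k) x) with hT
  have hTcard : T.card = m := by
    rw [hT, Finset.card_image_of_injOn, Finset.card_range]
    intro k hk k' hk' h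
    simp only [Finset.coe_range, Set.mem_Iio] at hk hk'
    have h' : (L.ρ^[k]) x = (L.ρ^[k']) x := by
      rw [Equiv.Perm.iterate_eq_pow, Equiv.Perm.iterate_eq_pow]; exact h
    exact Function.iterate_injOn_Iio_minimalPeriod hk hk' h'
  have hTS : T ⊆ Finset.univ.filter (fun y => L.Rel v y) := by
    intro y hy
    rw [hT, Finset.mem_image] at hy
    obtain ⟨k, -, rfl⟩ := hy
    simp only [Finset.mem_filter, Finset.mem_univ, true_and]
    exact rel_pow L v hx k
  have hScard := card_rel_le L v hv hx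
  have hTle := Finset.card_le_card hTS
  have hST : (Finset.univ.filter (fun y => L.Rel v y)).card ≤ T.card := by
    rw [hTcard]; omega
  have hEq : T = Finset.univ.filter (fun y => L.Rel v y) := Finset.eq_of_subset_of_card_le hTS hST
  refine ⟨by omega, fun y hy => ?_⟩
  have hyT : y ∈ T := by
    rw [hEq]
    simp only [Finset.mem_filter, Finset.mem_univ, true_and]
    exact hy
  rw [hT, Finset.mem_image] at hyT
  obtain ⟨k, -, hk⟩ := hyT
  exact ⟨k, hk⟩

theorem rel_iff_orbit' [IsAlgClosed K] (L : LocalData K F X R π)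
    [Algebra.IsAlgebraic (IntermediateField.adjoin K {π}) F] (v : Place K F)
    (hv : 0 < v.ord π) {x : X} (hx : L.Rel v x) (y : X) :
    L.Rel v y ↔ ∃ k : ℕ, (L.ρ ^ k) x = y :=
  ⟨(fiber_main L v hv hx).2 y, fun ⟨k, hk⟩ => hk ▸ rel_pow L v hx k⟩

theorem ord_π_eq_minimalPeriod' [IsAlgClosed K] (L : LocalData K F X R π)
    [Algebra.IsAlgebraic (IntermediateField.adjoin K {π}) F] (v : Place K F)
    (hv : 0 < v.ord π) {x : X} (hx : L.Rel v x) :
    v.ord π = (Function.minimalPeriod L.ρ x : ℤ) :=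
  (fiber_main L v hv hx).1

end Main

end Fermat.Agent.S24.H43
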